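/-
S27lib / D5 / CharBridge (helper1).

`charSubG Γ n ≃ parHomsM Γ IsParTor (ZMod n)` via `ψ ↦ exp(2πi ψ/n)` (`S29lib/K3/ExpChar`), hence
the equality of cardinalities.  General-`Γ` version of `S29lib/K3/CharEquiv.charEquiv`.
-/
import Mathlib
import Fermat.Agent.S29lib.K3.ExpChar
import Fermat.Agent.S27lib.D4.CharSub

set_option autoImplicit false

noncomputable section

namespace Fermat.Agent.S27lib.D5

open Fermat.Agent.S16lib.LG Fermat.Agent.S29lib.K3 Fermat.Agent.S27lib.D4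
open scoped MatrixGroups

variable (Γ : Subgroup SL(2, ℤ)) (n : ℕ) [NeZero n]

lemma expChar_mem_charSubG (ψ : ↥(parHomsM Γ IsParTor (ZMod n))) :
    expChar n (ψ : Additive Γ →+ ZMod n) ∈ charSubG Γ n := by
  refine ⟨fun γ => expChar_pow n _ γ, fun γ hγ => ?_⟩
  rw [expChar_eq_one_iff]
  exact ψ.2 γ hγ

/-- `Hom⁰(Γ, ℤ/n) → charSubG Γ n`, `ψ ↦ exp(2πi ψ/n)` -/
def charMapG : ↥(parHomsM Γ IsParTor (ZMod n)) → ↥(charSubG Γ n) :=
  fun ψ => ⟨expChar n ψ.1, expChar_mem_charSubG Γ n ψ⟩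

lemma charMapG_bijective : Function.Bijective (charMapG Γ n) := by
  constructor
  · intro ψ ψ' h
    apply Subtype.ext
    apply expChar_injective n
    exact congrArg Subtype.val h
  · intro χ
    obtain ⟨ψ, hψ⟩ := exists_expChar_eq n (χ : Γ →* ℂˣ) χ.2.1
    have hmem : ψ ∈ parHomsM Γ IsParTor (ZMod n) := by
      intro γ hγ
      rw [← expChar_eq_one_iff, hψ]
      exact χ.2.2 γ hγ
    exact ⟨⟨ψ, hmem⟩, Subtype.ext hψ⟩

/-- **the bridge** `μ_n ↔ ℤ/n` -/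
theorem card_charSubG_eq_card_parHomsM :
    Nat.card ↥(charSubG Γ n) = Nat.card ↥(parHomsM Γ IsParTor (ZMod n)) :=
  (Nat.card_congr (Equiv.ofBijective _ (charMapG_bijective Γ n))).symm

end Fermat.Agent.S27lib.D5
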