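/-
S27lib / D5 / Cross (helper1).

Crossed homomorphisms `z : G → ((G ⧸ Γ) → M)` for the action `rhoM` of `S16lib/LG/ScottCard`:
basic calculus, the attached homomorphism `Γ → M` (evaluation at the base coset), vanishing on
conjugates of powers of elements whose value has vanishing period sums, and Shapiro injectivity
(a crossed homomorphism whose attached homomorphism vanishes is a coboundary).
-/
import Mathlib
import Fermat.Agent.S16lib.LG.ScottCard

set_option autoImplicit false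

namespace Fermat.Agent.S27lib.D5

open Fermat.Agent.S16lib.LG Fermat.Agent.ProgramR.ES Fermat.Agent.ProgramR.Genus

variable {G : Type*} [Group G] (Γ : Subgroup G) {M : Type*} [AddCommGroup M]

/-- Crossed homomorphisms `G → ((G ⧸ Γ) → M)` with respect to `rhoM`. -/
def IsCross (z : G → ((G ⧸ Γ) → M)) : Prop :=
  ∀ g h : G, z (g * h) = z g + rhoM Γ g (z h)

namespace IsCross

variable {Γ} {z z' : G → ((G ⧸ Γ) → M)}

lemma zero : IsCross Γ (0 : G → ((G ⧸ Γ) → M)) := by
  intro g h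
  simp

lemma add (hz : IsCross Γ z) (hz' : IsCross Γ z') : IsCross Γ (z + z') := by
  intro g h
  simp only [Pi.add_apply, hz g h, hz' g h, map_add]
  abel

lemma neg (hz : IsCross Γ z) : IsCross Γ (-z) := by
  intro g h
  simp only [Pi.neg_apply, hz g h, map_neg, neg_add]

lemma sub (hz : IsCross Γ z) (hz' : IsCross Γ z') : IsCross Γ (z - z') := by
  rw [sub_eq_add_neg]
  exact hz.add hz'.neg

/-- coboundaries are crossed homomorphisms -/
lemma coboundary (v : (G ⧸ Γ) → M) : IsCross Γ (fun g => v - rhoM Γ g v) := by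
  intro g h
  simp only [map_sub, rhoM_mul]
  abel

lemma map_one (hz : IsCross Γ z) : z 1 = 0 := by
  have h := hz 1 1
  rw [mul_one, rhoM_one] at h
  exact left_eq_add.mp h

lemma map_inv (hz : IsCross Γ z) (g : G) : z g⁻¹ = -rhoM Γ g⁻¹ (z g) := by
  have h := hz g⁻¹ g
  rw [inv_mul_cancel, hz.map_one] at h
  exact eq_neg_of_add_eq_zero_left h.symm

lemma map_pow (hz : IsCross Γ z) (g : G) (n : ℕ) :
    z (g ^ n) = ∑ j ∈ Finset.range n, rhoM Γ (g ^ j) (z g) := by
  induction n with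
  | zero => simp [hz.map_one]
  | succ n ih => rw [pow_succ, hz, ih, Finset.sum_range_succ]

/-- two crossed homomorphisms agreeing on two generators agree -/
lemma eq_of_gen (hz : IsCross Γ z) (hz' : IsCross Γ z') (x₁ x₂ : G)
    (hgen : Subgroup.closure ({x₁, x₂} : Set G) = ⊤)
    (h1 : z x₁ = z' x₁) (h2 : z x₂ = z' x₂) : z = z' := by
  funext g
  have hg : g ∈ Subgroup.closure ({x₁, x₂} : Set G) := by rw [hgen]; trivial
  induction hg using Subgroup.closure_induction with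
  | mem g hg =>
    rcases hg with rfl | hg
    · exact h1
    · rw [Set.mem_singleton_iff] at hg
      subst hg
      exact h2
  | one => rw [hz.map_one, hz'.map_one]
  | mul g h _ _ ihg ihh => rw [hz, hz', ihg, ihh]
  | inv g _ ih => rw [hz.map_inv, hz'.map_inv, ih]

/-- the value of `z (g ^ n)` at a point fixed by `g ^ n` is a period sum -/
lemma pow_apply_eq_zero (hz : IsCross Γ z) (g : G) (hW : z g ∈ Wsub Γ (M := M) g) (n : ℕ)
    (p : G ⧸ Γ) (hp : g ^ n • p = p) : z (g ^ n) p = 0 := by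
  rw [hz.map_pow, Finset.sum_apply]
  simp only [rhoM_apply]
  exact hW p n hp

lemma zpow_apply_eq_zero (hz : IsCross Γ z) (g : G) (hW : z g ∈ Wsub Γ (M := M) g) (k : ℤ)
    (p : G ⧸ Γ) (hp : g ^ k • p = p) : z (g ^ k) p = 0 := by
  obtain ⟨n, rfl | rfl⟩ := Int.eq_nat_or_neg k
  · rw [zpow_natCast] at hp ⊢
    exact hz.pow_apply_eq_zero g hW n p hp
  · rw [zpow_neg, zpow_natCast] at hp ⊢
    have hp' : g ^ n • p = p := by
      conv_lhs => rw [← hp]
      rw [smul_inv_smul]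
    rw [hz.map_inv]
    simp only [Pi.neg_apply, rhoM_apply, inv_inv]
    rw [hp', hz.pow_apply_eq_zero g hW n p hp', neg_zero]

/-- the homomorphism `Γ → M` attached to a crossed homomorphism: evaluation at the base coset -/
def psiOf (hz : IsCross Γ z) : Additive Γ →+ M where
  toFun γ := z ((Additive.toMul γ : Γ) : G) (QuotientGroup.mk 1)
  map_zero' := by
    show z (((1 : Γ) : G)) (QuotientGroup.mk 1) = 0
    rw [Subgroup.coe_one, hz.map_one]
    rfl
  map_add' γ δ := by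
    show z (((Additive.toMul γ * Additive.toMul δ : Γ)) : G) (QuotientGroup.mk 1) = _
    rw [Subgroup.coe_mul, hz]
    simp only [Pi.add_apply, rhoM_apply]
    rw [smul_base_eq]

@[simp] lemma psiOf_apply (hz : IsCross Γ z) (γ : Γ) :
    hz.psiOf (Additive.ofMul γ) = z (γ : G) (QuotientGroup.mk 1) := rfl

lemma psiOf_add (hz : IsCross Γ z) (hz' : IsCross Γ z') :
    (hz.add hz').psiOf = hz.psiOf + hz'.psiOf := by
  apply AddMonoidHom.ext
  intro γ
  rfl

/-- **vanishing on conjugates**: if `z c = 0`, `c` fixes the base coset and `z y` has vanishing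
period sums along `y`, then `z` vanishes at the base coset on `c * (g * y ^ k * g⁻¹) ∈ Γ`. -/
lemma apply_base_eq_zero (hz : IsCross Γ z) {c g y : G} {k : ℤ} (hc0 : z c = 0)
    (hcx : c • (QuotientGroup.mk 1 : G ⧸ Γ) = QuotientGroup.mk 1)
    (hW : z y ∈ Wsub Γ (M := M) y) (hγ : c * (g * y ^ k * g⁻¹) ∈ Γ) :
    z (c * (g * y ^ k * g⁻¹)) (QuotientGroup.mk 1) = 0 := by
  set x₀ : G ⧸ Γ := QuotientGroup.mk 1 with hx₀
  set δ : G := g * y ^ k * g⁻¹ with hδ
  have hcΓ : c ∈ Γ := by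
    have h1 : (QuotientGroup.mk c : G ⧸ Γ) = QuotientGroup.mk 1 := by
      have h2 : c • (QuotientGroup.mk 1 : G ⧸ Γ) = QuotientGroup.mk c := by
        rw [smul_mk_eq, mul_one]
      rw [← h2]
      exact hcx
    rw [QuotientGroup.eq] at h1
    have h2 : c⁻¹ ∈ Γ := by simpa using h1
    exact (Subgroup.inv_mem_iff Γ).mp h2
  have hδΓ : δ ∈ Γ := by
    have : δ = c⁻¹ * (c * δ) := by group
    rw [this]
    exact Γ.mul_mem (Γ.inv_mem hcΓ) hγ
  have hδx : δ⁻¹ • x₀ = x₀ := smul_base_eq Γ ⟨δ, hδΓ⟩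
  have hδx' : δ • x₀ = x₀ := by
    conv_lhs => rw [← hδx]
    rw [smul_inv_smul]
  have hcx' : c⁻¹ • x₀ = x₀ := by
    conv_lhs => rw [← hcx]
    rw [inv_smul_smul]
  have hfix : y ^ k • (g⁻¹ • x₀) = g⁻¹ • x₀ := by
    have : y ^ k • (g⁻¹ • x₀) = g⁻¹ • (δ • x₀) := by
      rw [hδ]
      simp only [← mul_smul]
      congr 1
      group
    rw [this, hδx']
  rw [hz c δ, hc0]
  simp only [Pi.add_apply, Pi.zero_apply, zero_add, rhoM_apply]
  rw [hcx']
  have e1 : z δ = z g + rhoM Γ g (z (y ^ k)) - rhoM Γ δ (z g) := by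
    rw [hδ, hz (g * y ^ k) g⁻¹, hz g (y ^ k), hz.map_inv, map_neg, ← rhoM_mul]
    have : g * y ^ k * g⁻¹ = δ := hδ.symm
    rw [this]
    abel
  rw [e1]
  simp only [Pi.add_apply, Pi.sub_apply, rhoM_apply]
  rw [hδx, hz.zpow_apply_eq_zero y hW k _ hfix]
  abel

/-- **Shapiro injectivity**: a crossed homomorphism vanishing at the base coset on `Γ` is a
coboundary. -/
lemma exists_coboundary (hz : IsCross Γ z) (h0 : ∀ γ : Γ, z (γ : G) (QuotientGroup.mk 1) = 0) :
    ∃ v : (G ⧸ Γ) → M, ∀ g : G, z g = v - rhoM Γ g v := by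
  -- well-definedness
  have hwd : ∀ h h' : G, (QuotientGroup.mk h : G ⧸ Γ) = QuotientGroup.mk h' →
      z h (QuotientGroup.mk h) = z h' (QuotientGroup.mk h') := by
    intro h h' hh
    have hγ : h⁻¹ * h' ∈ Γ := QuotientGroup.eq.mp hh
    have e : h' = h * (h⁻¹ * h') := by group
    rw [← hh]
    conv_rhs => rw [e, hz h (h⁻¹ * h')]
    simp only [Pi.add_apply, rhoM_apply]
    have e2 : h⁻¹ • (QuotientGroup.mk h : G ⧸ Γ) = QuotientGroup.mk 1 := by
      rw [smul_mk_eq, inv_mul_cancel]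
    rw [e2, h0 ⟨h⁻¹ * h', hγ⟩, add_zero]
  refine ⟨fun p => z (rep Γ p) p, fun g => ?_⟩
  funext p
  simp only [Pi.sub_apply, rhoM_apply]
  set h := rep Γ p with hh
  have hp : (QuotientGroup.mk h : G ⧸ Γ) = p := mk_rep Γ p
  have e1 : z (rep Γ (g⁻¹ • p)) (g⁻¹ • p) = z (g⁻¹ * h) (QuotientGroup.mk (g⁻¹ * h)) := by
    have e0 : (QuotientGroup.mk (rep Γ (g⁻¹ • p)) : G ⧸ Γ) = QuotientGroup.mk (g⁻¹ * h) := by
      rw [mk_rep, ← hp, smul_mk_eq]
    have := hwd _ _ e0
    rw [mk_rep] at this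
    exact this
  rw [e1, hz g⁻¹ h, hz.map_inv]
  simp only [Pi.add_apply, Pi.neg_apply, rhoM_apply, inv_inv]
  have e3 : (QuotientGroup.mk (g⁻¹ * h) : G ⧸ Γ) = g⁻¹ • p := by
    rw [← hp, smul_mk_eq]
  rw [e3, smul_inv_smul]
  abel

end IsCross

end Fermat.Agent.S27lib.D5
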