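/-
S27lib / D5 / Present (helper1).

The universal property of `PSL₂(ℤ) = C₂ * C₃` in the form needed for crossed homomorphisms:
for every group `H` and `a b : H` with `a ^ 2 = 1`, `b ^ 3 = 1` there is a homomorphism
`φ : SL(2,ℤ) →* H` with `φ S = a` and `φ (S * T) = b`.

Proof: ping-pong (`Monoid.CoprodI.lift_injective_of_ping_pong`) for `S` and `T S` acting on `ℍ`
with the sets `{re < 0}` and `{re > 0}` shows that `C₂ * C₃ → Perm ℍ` is injective; its range
contains the range of `SL(2,ℤ) → Perm ℍ` because `S, T` generate.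
-/
import Mathlib

set_option autoImplicit false

noncomputable section

namespace Fermat.Agent.S27lib.D5

open UpperHalfPlane ModularGroup Matrix.SpecialLinearGroup Monoid
open scoped MatrixGroups Pointwise

/-- the homomorphism `ℤ/n → P`, `1 ↦ g`, for `g ^ n = 1` -/
def cycHom {P : Type*} [Group P] (n : ℕ) [NeZero n] (g : P) (hg : g ^ n = 1) :
    Multiplicative (ZMod n) →* P where
  toFun h := g ^ (ZMod.val (Multiplicative.toAdd h))
  map_one' := by simp
  map_mul' x y := by
    show g ^ (ZMod.val (Multiplicative.toAdd x + Multiplicative.toAdd y)) = _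
    rw [ZMod.val_add, ← pow_eq_pow_mod _ hg, pow_add]

lemma cycHom_apply {P : Type*} [Group P] (n : ℕ) [NeZero n] (g : P) (hg : g ^ n = 1)
    (h : Multiplicative (ZMod n)) :
    cycHom n g hg h = g ^ (ZMod.val (Multiplicative.toAdd h)) := rfl

/-- the orders `2, 3` -/
def cn : Bool → ℕ
  | false => 2
  | true => 3

instance instNeZeroCn (b : Bool) : NeZero (cn b) := by
  cases b
  · exact ⟨by decide⟩
  · exact ⟨by decide⟩

/-- the family `C₂, C₃` -/
abbrev Hf (b : Bool) : Type := Multiplicative (ZMod (cn b))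

/-- the two generators -/
def genOf {P : Type*} (s u : P) : Bool → P
  | false => s
  | true => u

lemma genOf_pow {P : Type*} [Group P] {s u : P} (hs : s ^ 2 = 1) (hu : u ^ 3 = 1) (b : Bool) :
    genOf s u b ^ cn b = 1 := by
  cases b
  · exact hs
  · exact hu

/-- the family of homomorphisms `C₂ → P`, `C₃ → P` -/
def famHom {P : Type*} [Group P] {s u : P} (hs : s ^ 2 = 1) (hu : u ^ 3 = 1) (b : Bool) :
    Hf b →* P :=
  cycHom (cn b) (genOf s u b) (genOf_pow hs hu b)

/-- the generator of `C₂` -/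
def g2 : Hf false := Multiplicative.ofAdd (1 : ZMod 2)

/-- the generator of `C₃` -/
def g3 : Hf true := Multiplicative.ofAdd (1 : ZMod 3)

lemma famHom_g2 {P : Type*} [Group P] {s u : P} (hs : s ^ 2 = 1) (hu : u ^ 3 = 1) :
    famHom hs hu false g2 = s := by
  show s ^ (ZMod.val (1 : ZMod 2)) = s
  have : ZMod.val (1 : ZMod 2) = 1 := by decide
  rw [this, pow_one]

lemma famHom_g3 {P : Type*} [Group P] {s u : P} (hs : s ^ 2 = 1) (hu : u ^ 3 = 1) :
    famHom hs hu true g3 = u := by
  show u ^ (ZMod.val (1 : ZMod 3)) = u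
  have : ZMod.val (1 : ZMod 3) = 1 := by decide
  rw [this, pow_one]

/-! ### The action on `ℍ` -/

lemma re_S_smul (z : ℍ) : (S • z).re = -z.re / Complex.normSq (z : ℂ) := by
  rw [modular_S_smul]
  show ((-(z : ℂ))⁻¹).re = _
  rw [Complex.inv_re, Complex.neg_re, Complex.normSq_neg]
  rfl

lemma re_TS_smul (z : ℍ) : ((T * S) • z).re = 1 - z.re / Complex.normSq (z : ℂ) := by
  rw [mul_smul, ModularGroup.re_T_smul, re_S_smul]
  ring

lemma normSq_pos' (z : ℍ) : 0 < Complex.normSq (z : ℂ) :=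
  Complex.normSq_pos.mpr z.ne_zero

lemma re_S_smul_neg {z : ℍ} (hz : 0 < z.re) : (S • z).re < 0 := by
  rw [re_S_smul]
  apply div_neg_of_neg_of_pos _ (normSq_pos' z)
  linarith

lemma one_lt_re_TS_smul {z : ℍ} (hz : z.re < 0) : 1 < ((T * S) • z).re := by
  rw [re_TS_smul]
  have : z.re / Complex.normSq (z : ℂ) < 0 := div_neg_of_neg_of_pos hz (normSq_pos' z)
  linarith

lemma re_TS_smul_pos {z : ℍ} (hz : 1 < z.re) : 0 < ((T * S) • z).re := by
  rw [re_TS_smul]
  have hpos := normSq_pos' z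
  have h1 : z.re < Complex.normSq (z : ℂ) := by
    rw [Complex.normSq_apply]
    have him : 0 < (z : ℂ).im * (z : ℂ).im := mul_pos z.im_pos z.im_pos
    have hre : (z : ℂ).re = z.re := rfl
    rw [hre]
    nlinarith
  have h2 : z.re / Complex.normSq (z : ℂ) < 1 := (div_lt_one hpos).mpr h1
  linarith

/-- the permutation representation on `ℍ` -/
abbrev rhoH : SL(2, ℤ) →* Equiv.Perm ℍ := MulAction.toPermHom SL(2, ℤ) ℍ

lemma rhoH_apply (g : SL(2, ℤ)) (z : ℍ) : rhoH g z = g • z := rfl

lemma S_mul_S_eq_neg_one : (S * S : SL(2, ℤ)) = -1 := by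
  ext i j
  fin_cases i <;> fin_cases j <;>
    simp [ModularGroup.S, Matrix.mul_apply, Fin.sum_univ_two]

lemma TS_cube_eq_neg_one : ((T * S) ^ 3 : SL(2, ℤ)) = -1 := by
  ext i j
  fin_cases i <;> fin_cases j <;>
    simp [pow_succ, ModularGroup.S, ModularGroup.T, Matrix.mul_apply, Fin.sum_univ_two]

lemma rhoH_neg_one : rhoH (-1) = 1 := by
  apply Equiv.ext
  intro z
  show (-1 : SL(2, ℤ)) • z = z
  rw [SL_neg_smul, one_smul]

lemma rhoH_S_sq : rhoH S ^ 2 = 1 := by
  rw [← map_pow, pow_two, S_mul_S_eq_neg_one, rhoH_neg_one]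

lemma rhoH_TS_cube : rhoH (T * S) ^ 3 = 1 := by
  rw [← map_pow, TS_cube_eq_neg_one, rhoH_neg_one]

/-- the ping-pong sets -/
def ppSet : Bool → Set ℍ
  | false => {z | z.re < 0}
  | true => {z | 0 < z.re}

lemma toAdd_eq_one_of_ne_one (h : Hf false) (hne : h ≠ 1) : h = g2 := by
  have key : ∀ x : ZMod 2, x ≠ 0 → x = 1 := by decide
  have h1 : Multiplicative.toAdd h ≠ 0 := fun h0 => hne (by
    apply Multiplicative.toAdd.injective
    rw [h0]; rfl)
  apply Multiplicative.toAdd.injective
  exact key _ h1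

lemma eq_g3_or_of_ne_one (h : Hf true) (hne : h ≠ 1) : h = g3 ∨ h = g3 * g3 := by
  have key : ∀ x : ZMod 3, x ≠ 0 → x = 1 ∨ x = 1 + 1 := by decide
  have h1 : Multiplicative.toAdd h ≠ 0 := fun h0 => hne (by
    apply Multiplicative.toAdd.injective
    rw [h0]; rfl)
  rcases key _ h1 with h2 | h2
  · left
    apply Multiplicative.toAdd.injective
    exact h2
  · right
    apply Multiplicative.toAdd.injective
    exact h2

/-- **ping-pong**: `C₂ * C₃ → Perm ℍ` is injective. -/
theorem lift_famHom_injective :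
    Function.Injective (CoprodI.lift (famHom rhoH_S_sq rhoH_TS_cube)) := by
  apply CoprodI.lift_injective_of_ping_pong (famHom rhoH_S_sq rhoH_TS_cube) _ ppSet
  · -- nonempty
    intro b
    cases b
    · refine ⟨⟨⟨-1, 1⟩, by simp⟩, ?_⟩
      show (-1 : ℝ) < 0
      norm_num
    · refine ⟨⟨⟨1, 1⟩, by simp⟩, ?_⟩
      show (0 : ℝ) < 1
      norm_num
  · -- disjoint
    intro i j hij
    cases i <;> cases j
    · exact absurd rfl hij
    · rw [Function.onFun, Set.disjoint_left]
      intro z hz hz'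
      have h1 : z.re < 0 := hz
      have h2 : 0 < z.re := hz'
      linarith
    · rw [Function.onFun, Set.disjoint_left]
      intro z hz hz'
      have h1 : 0 < z.re := hz
      have h2 : z.re < 0 := hz'
      linarith
    · exact absurd rfl hij
  · -- ping-pong
    intro i j hij h hne
    cases i <;> cases j
    · exact absurd rfl hij
    · -- `S` maps `{re > 0}` into `{re < 0}`
      rw [toAdd_eq_one_of_ne_one h hne, famHom_g2]
      rintro _ ⟨z, hz, rfl⟩
      exact re_S_smul_neg hz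
    · -- `TS`, `(TS)²` map `{re < 0}` into `{re > 0}`
      rcases eq_g3_or_of_ne_one h hne with rfl | rfl
      · rw [famHom_g3]
        rintro _ ⟨z, hz, rfl⟩
        have := one_lt_re_TS_smul hz
        show 0 < ((T * S) • z).re
        linarith
      · rw [map_mul, famHom_g3]
        rintro _ ⟨z, hz, rfl⟩
        show 0 < ((T * S) • ((T * S) • z)).re
        exact re_TS_smul_pos (one_lt_re_TS_smul hz)
    · exact absurd rfl hij
  · -- cardinality
    right
    refine ⟨true, ?_⟩
    rw [Cardinal.mk_fintype]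
    have : Fintype.card (Hf true) = 3 := by
      show Fintype.card (Multiplicative (ZMod 3)) = 3
      rw [Fintype.card_multiplicative, ZMod.card]
    rw [this]
    norm_num

/-- the range of `SL(2,ℤ) → Perm ℍ` lies in the range of `C₂ * C₃ → Perm ℍ` -/
lemma rhoH_mem_range (g : SL(2, ℤ)) :
    rhoH g ∈ (CoprodI.lift (famHom rhoH_S_sq rhoH_TS_cube)).range := by
  set L := CoprodI.lift (famHom rhoH_S_sq rhoH_TS_cube) with hL
  have hS : rhoH S ∈ L.range := ⟨CoprodI.of g2, by
    rw [hL, CoprodI.lift_of, famHom_g2]⟩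
  have hTS : rhoH (T * S) ∈ L.range := ⟨CoprodI.of g3, by
    rw [hL, CoprodI.lift_of, famHom_g3]⟩
  have hT : rhoH T ∈ L.range := by
    have : rhoH T = rhoH (T * S) * (rhoH S)⁻¹ := by
      rw [← map_inv, ← map_mul, mul_inv_cancel_right]
    rw [this]
    exact L.range.mul_mem hTS (L.range.inv_mem hS)
  have hg : g ∈ Subgroup.closure ({S, T} : Set SL(2, ℤ)) := by
    rw [SpecialLinearGroup.SL2Z_generators]
    trivial
  induction hg using Subgroup.closure_induction with
  | mem g hg =>
    rcases hg with rfl | hg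
    · exact hS
    · rw [Set.mem_singleton_iff] at hg
      subst hg
      exact hT
  | one => rw [map_one]; exact L.range.one_mem
  | mul g h _ _ ihg ihh => rw [map_mul]; exact L.range.mul_mem ihg ihh
  | inv g _ ih => rw [map_inv]; exact L.range.inv_mem ih

/-- the homomorphism `SL(2,ℤ) → C₂ * C₃` -/
def toCoprod : SL(2, ℤ) →* CoprodI Hf :=
  (MonoidHom.ofInjective lift_famHom_injective).symm.toMonoidHom.comp
    (rhoH.codRestrict (CoprodI.lift (famHom rhoH_S_sq rhoH_TS_cube)).range rhoH_mem_range)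

lemma lift_toCoprod (g : SL(2, ℤ)) :
    CoprodI.lift (famHom rhoH_S_sq rhoH_TS_cube) (toCoprod g) = rhoH g := by
  set L := CoprodI.lift (famHom rhoH_S_sq rhoH_TS_cube) with hL
  have h := (MonoidHom.ofInjective lift_famHom_injective).apply_symm_apply
    (rhoH.codRestrict L.range rhoH_mem_range g)
  have h2 := congrArg Subtype.val h
  rw [MonoidHom.ofInjective_apply] at h2
  exact h2

lemma toCoprod_S : toCoprod S = CoprodI.of g2 := by
  apply lift_famHom_injective
  rw [lift_toCoprod, CoprodI.lift_of, famHom_g2]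

lemma toCoprod_TS : toCoprod (T * S) = CoprodI.of g3 := by
  apply lift_famHom_injective
  rw [lift_toCoprod, CoprodI.lift_of, famHom_g3]

/-- **Universal property** (`T S` version). -/
theorem exists_hom_S_TS {H : Type*} [Group H] (a b : H) (ha : a ^ 2 = 1) (hb : b ^ 3 = 1) :
    ∃ φ : SL(2, ℤ) →* H, φ S = a ∧ φ (T * S) = b := by
  refine ⟨(CoprodI.lift (famHom ha hb)).comp toCoprod, ?_, ?_⟩
  · rw [MonoidHom.comp_apply, toCoprod_S, CoprodI.lift_of, famHom_g2]
  · rw [MonoidHom.comp_apply, toCoprod_TS, CoprodI.lift_of, famHom_g3]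

/-- **Universal property** (`S T` version). -/
theorem exists_hom_S_ST {H : Type*} [Group H] (a b : H) (ha : a ^ 2 = 1) (hb : b ^ 3 = 1) :
    ∃ φ : SL(2, ℤ) →* H, φ S = a ∧ φ (S * T) = b := by
  have hb' : (a⁻¹ * b * a) ^ 3 = 1 := by
    have e : a⁻¹ * b * a = a⁻¹ * b * (a⁻¹)⁻¹ := by rw [inv_inv]
    rw [e, conj_pow, hb, mul_one, mul_inv_cancel]
  obtain ⟨φ, h1, h2⟩ := exists_hom_S_TS a (a⁻¹ * b * a) ha hb'
  refine ⟨φ, h1, ?_⟩
  have e : (S * T : SL(2, ℤ)) = S * (T * S) * S⁻¹ := by group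
  rw [e, map_mul, map_mul, map_inv, h1, h2]
  group

end Fermat.Agent.S27lib.D5
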