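/-
S27lib / D5 / CrossSL (helper1).

Existence of crossed homomorphisms `SL(2,ℤ) → ((SL(2,ℤ) ⧸ Γ) → M)` (for `-1 ∈ Γ`) with prescribed
coboundary values at `(S T)⁻¹` and `S`, vanishing on `±1`: the hypothesis `Hz` of
`ScottEq.card_parHomsM_mul_eq` for `(x₁, x₂, x₃) = ((S T)⁻¹, S, T)`.

Construction: in the semidirect product `(X → M) ⋊ Perm X` the conjugates
`n (1, σ) n⁻¹`, `n = (v, 1)`, have the same order as `σ`; `Present.exists_hom_S_ST` gives a
homomorphism `SL(2,ℤ) → (X → M) ⋊ Perm X` whose left component is the crossed homomorphism.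
-/
import Mathlib
import Fermat.Agent.S27lib.D5.Cross
import Fermat.Agent.S27lib.D5.Present

set_option autoImplicit false

noncomputable section

namespace Fermat.Agent.S27lib.D5

open Fermat.Agent.S16lib.LG ModularGroup Matrix.SpecialLinearGroup
open scoped MatrixGroups

section Semi

variable (X : Type*) (M : Type*) [AddCommGroup M]

/-- the action of `Perm X` on `Multiplicative (X → M)`: `(σ f) x = f (σ⁻¹ x)` -/
def permAct : Equiv.Perm X →* MulAut (Multiplicative (X → M)) where
  toFun σ :=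
    { toFun := fun f => Multiplicative.ofAdd (fun x => Multiplicative.toAdd f (σ⁻¹ x))
      invFun := fun f => Multiplicative.ofAdd (fun x => Multiplicative.toAdd f (σ x))
      left_inv := by
        intro f
        apply Multiplicative.toAdd.injective
        funext x
        simp
      right_inv := by
        intro f
        apply Multiplicative.toAdd.injective
        funext x
        simp
      map_mul' := by
        intro f g
        rfl }
  map_one' := by
    apply MulEquiv.ext
    intro f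
    rfl
  map_mul' σ τ := by
    apply MulEquiv.ext
    intro f
    apply Multiplicative.toAdd.injective
    funext x
    simp [mul_inv_rev]

variable {X M}

lemma permAct_apply (σ : Equiv.Perm X) (f : Multiplicative (X → M)) (x : X) :
    Multiplicative.toAdd (permAct X M σ f) x = Multiplicative.toAdd f (σ⁻¹ x) := rfl

/-- the conjugate of `(0, σ)` by `(v, 1)` -/
def cobEl (σ : Equiv.Perm X) (v : X → M) : Multiplicative (X → M) ⋊[permAct X M] Equiv.Perm X :=
  SemidirectProduct.inl (Multiplicative.ofAdd v) * SemidirectProduct.inr σ *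
    (SemidirectProduct.inl (Multiplicative.ofAdd v))⁻¹

lemma cobEl_pow (σ : Equiv.Perm X) (v : X → M) (n : ℕ) (hσ : σ ^ n = 1) : cobEl σ v ^ n = 1 := by
  rw [cobEl, conj_pow, ← map_pow, hσ, map_one, mul_one, mul_inv_cancel]

lemma cobEl_right (σ : Equiv.Perm X) (v : X → M) : (cobEl σ v).right = σ := by
  simp [cobEl]

lemma cobEl_left (σ : Equiv.Perm X) (v : X → M) (x : X) :
    Multiplicative.toAdd (cobEl σ v).left x = v x - v (σ⁻¹ x) := by
  simp only [cobEl, ← map_inv, SemidirectProduct.mul_left, SemidirectProduct.left_inl,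
    SemidirectProduct.left_inr, SemidirectProduct.right_inl, SemidirectProduct.mul_right,
    SemidirectProduct.right_inr, map_one, mul_one, one_mul]
  rw [toAdd_mul, Pi.add_apply, permAct_apply]
  simp [sub_eq_add_neg]

end Semi

section General

variable {G : Type*} [Group G] (Γ : Subgroup G) {M : Type*} [AddCommGroup M]

/-- the left component of a homomorphism into the semidirect product lifting the permutation
representation is a crossed homomorphism -/
lemma isCross_left (φ : G →* Multiplicative ((G ⧸ Γ) → M) ⋊[permAct (G ⧸ Γ) M] Equiv.Perm (G ⧸ Γ))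
    (hφ : ∀ g, (φ g).right = MulAction.toPerm g) :
    IsCross Γ (fun g => Multiplicative.toAdd (φ g).left) := by
  intro g h
  funext x
  show Multiplicative.toAdd (φ (g * h)).left x = _
  rw [map_mul, SemidirectProduct.mul_left, toAdd_mul, Pi.add_apply, permAct_apply, hφ]
  rfl

end General

section SL

variable (Γ : Subgroup SL(2, ℤ)) (M : Type*) [AddCommGroup M]

/-- a central element of `Γ` acts trivially on the cosets -/
lemma smul_eq_of_central {G : Type*} [Group G] (Δ : Subgroup G) {c : G} (hc : c ∈ Δ)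
    (hcen : ∀ g : G, c * g = g * c) (x : G ⧸ Δ) : c • x = x := by
  induction x using QuotientGroup.induction_on with
  | H g =>
    show ((c * g : G) : G ⧸ Δ) = (g : G ⧸ Δ)
    rw [hcen, QuotientGroup.eq]
    simpa using hc

lemma neg_one_smul_eq (hneg : (-1 : SL(2, ℤ)) ∈ Γ) (x : SL(2, ℤ) ⧸ Γ) :
    (-1 : SL(2, ℤ)) • x = x :=
  smul_eq_of_central Γ hneg (fun g => by rw [neg_mul, mul_neg, one_mul, mul_one]) x

lemma rhoM_neg_one (hneg : (-1 : SL(2, ℤ)) ∈ Γ) (f : (SL(2, ℤ) ⧸ Γ) → M) :
    rhoM Γ (-1 : SL(2, ℤ)) f = f := by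
  funext x
  rw [rhoM_apply]
  have : (-1 : SL(2, ℤ))⁻¹ = -1 := by
    rw [inv_eq_iff_mul_eq_one, neg_mul_neg, one_mul]
  rw [this, neg_one_smul_eq Γ hneg]

lemma toPerm_S_sq (hneg : (-1 : SL(2, ℤ)) ∈ Γ) :
    (MulAction.toPerm S : Equiv.Perm (SL(2, ℤ) ⧸ Γ)) ^ 2 = 1 := by
  apply Equiv.ext
  intro x
  rw [pow_two, Equiv.Perm.mul_apply, MulAction.toPerm_apply, MulAction.toPerm_apply, ← mul_smul,
    S_mul_S_eq_neg_one, neg_one_smul_eq Γ hneg]
  rfl

lemma ST_cube_eq_neg_one : ((S * T) ^ 3 : SL(2, ℤ)) = -1 := by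
  ext i j
  fin_cases i <;> fin_cases j <;>
    simp [pow_succ, ModularGroup.S, ModularGroup.T, Matrix.mul_apply, Fin.sum_univ_two]

lemma toPerm_ST_cube (hneg : (-1 : SL(2, ℤ)) ∈ Γ) :
    (MulAction.toPerm (S * T) : Equiv.Perm (SL(2, ℤ) ⧸ Γ)) ^ 3 = 1 := by
  apply Equiv.ext
  intro x
  have h : ((MulAction.toPerm (S * T) : Equiv.Perm (SL(2, ℤ) ⧸ Γ)) ^ 3) x =
      ((S * T) ^ 3 : SL(2, ℤ)) • x := by
    rw [← MulAction.toPermHom_apply, ← map_pow]
    rfl
  rw [h, ST_cube_eq_neg_one, neg_one_smul_eq Γ hneg]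
  rfl

/-- **(Hz) for `SL(2,ℤ)`**, generators `(S T)⁻¹, S`. -/
theorem exists_isCross_SL (hneg : (-1 : SL(2, ℤ)) ∈ Γ) (a b : (SL(2, ℤ) ⧸ Γ) → M) :
    ∃ z : SL(2, ℤ) → ((SL(2, ℤ) ⧸ Γ) → M), IsCross Γ z ∧
      z (S * T)⁻¹ = a - rhoM Γ (S * T)⁻¹ a ∧ z S = b - rhoM Γ S b ∧
      ∀ c ∈ Subgroup.zpowers (-1 : SL(2, ℤ)), z c = 0 := by
  set σ : Equiv.Perm (SL(2, ℤ) ⧸ Γ) := MulAction.toPerm S with hσ
  set υ : Equiv.Perm (SL(2, ℤ) ⧸ Γ) := MulAction.toPerm (S * T) with hυ
  obtain ⟨φ, hφS, hφU⟩ := exists_hom_S_ST (cobEl σ b) (cobEl υ a)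
    (cobEl_pow σ b 2 (toPerm_S_sq Γ hneg)) (cobEl_pow υ a 3 (toPerm_ST_cube Γ hneg))
  -- the right component is the permutation representation
  have hright : (SemidirectProduct.rightHom.comp φ : SL(2, ℤ) →* Equiv.Perm (SL(2, ℤ) ⧸ Γ)) =
      MulAction.toPermHom SL(2, ℤ) (SL(2, ℤ) ⧸ Γ) := by
    apply MonoidHom.eq_of_eqOn_dense SpecialLinearGroup.SL2Z_generators
    intro g hg
    rcases hg with rfl | hg
    · show (φ S).right = MulAction.toPerm S
      rw [hφS, cobEl_right]
    · rw [Set.mem_singleton_iff] at hg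
      subst hg
      have e : (T : SL(2, ℤ)) = S⁻¹ * (S * T) := by group
      show (φ T).right = MulAction.toPerm T
      conv_lhs => rw [e, map_mul, map_inv, hφS, hφU]
      rw [SemidirectProduct.mul_right, SemidirectProduct.inv_right, cobEl_right, cobEl_right,
        hσ, hυ]
      apply Equiv.ext
      intro x
      show S⁻¹ • ((S * T) • x) = T • x
      rw [← mul_smul, inv_mul_cancel_left]
  have hφr : ∀ g, (φ g).right = MulAction.toPerm g := by
    intro g
    have := DFunLike.congr_fun hright g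
    exact this
  set z : SL(2, ℤ) → ((SL(2, ℤ) ⧸ Γ) → M) := fun g => Multiplicative.toAdd (φ g).left with hz
  have hcross : IsCross Γ z := isCross_left Γ φ hφr
  have hzS : z S = b - rhoM Γ S b := by
    funext x
    show Multiplicative.toAdd (φ S).left x = _
    rw [hφS, cobEl_left]
    rfl
  have hzU : z (S * T) = a - rhoM Γ (S * T) a := by
    funext x
    show Multiplicative.toAdd (φ (S * T)).left x = _
    rw [hφU, cobEl_left]
    rfl
  refine ⟨z, hcross, ?_, hzS, ?_⟩
  · rw [hcross.map_inv, hzU, map_sub, rhoM_inv_cancel]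
    abel
  · -- vanishing on `±1`
    have hneg0 : z (-1 : SL(2, ℤ)) = 0 := by
      rw [← S_mul_S_eq_neg_one, hcross S S, hzS, map_sub, ← rhoM_mul, S_mul_S_eq_neg_one,
        rhoM_neg_one Γ M hneg]
      abel
    let K : Subgroup SL(2, ℤ) :=
      { carrier := {c | z c = 0}
        one_mem' := hcross.map_one
        mul_mem' := by
          intro c c' hc hc'
          show z (c * c') = 0
          rw [hcross c c', hc, hc', map_zero, add_zero]
        inv_mem' := by
          intro c hc
          show z c⁻¹ = 0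
          rw [hcross.map_inv, hc, map_zero, neg_zero] }
    have hK : Subgroup.zpowers (-1 : SL(2, ℤ)) ≤ K := by
      rw [Subgroup.zpowers_le]
      exact hneg0
    intro c hc
    exact hK hc

end SL

end Fermat.Agent.S27lib.D5
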