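/-
S27lib / D5 / ParClass (helper1).

Classification of the `IsParTor` elements of a subgroup `Γ ≤ SL(2,ℤ)` acting freely modulo `±1`
on `ℍ`: up to sign they are conjugates of powers of `T` (parabolic elements, from
`S29lib/K3/CuspDiv.exists_eq_conj_T_zpow_of_isPar`) or `±1` (finite order elements, from
`S29lib/K3/Torsion.exists_fixed_point_of_pow_twelve`).  This is the hypothesis `Hcls` of
`ScottEq.card_parHomsM_mul_eq` for `(x₁, x₂, x₃) = ((S T)⁻¹, S, T)`, `C = {±1}`.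
-/
import Mathlib
import Fermat.Agent.S29lib.K3.CuspDiv
import Fermat.Agent.S29lib.K3.Torsion
import Fermat.Agent.S16lib.LG.Shimura

set_option autoImplicit false

namespace Fermat.Agent.S27lib.D5

open Fermat.Agent.ProgramR.ES Fermat.Agent.S16lib.LG ModularGroup UpperHalfPlane
open scoped MatrixGroups

/-- a parabolic element of `SL(2,ℤ)` is `±` a conjugate of a power of `T` -/
theorem isPar_classify (γ : SL(2, ℤ)) (h : IsPar γ) :
    ∃ (g : SL(2, ℤ)) (k : ℤ), γ = g * T ^ k * g⁻¹ ∨ γ = -(g * T ^ k * g⁻¹) := by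
  obtain ⟨g, s, h | h⟩ := Fermat.Agent.S29lib.K3.exists_eq_conj_T_zpow_of_isPar γ h
  · exact ⟨g⁻¹, s, Or.inl (by rw [h, inv_inv, mul_assoc])⟩
  · exact ⟨g⁻¹, s, Or.inr (by rw [h, inv_inv, mul_assoc])⟩

/-- an element of finite order of a subgroup acting freely modulo `±1` is `±1` -/
theorem eq_one_or_neg_one_of_pow_twelve {Γ : Subgroup SL(2, ℤ)}
    (hfree : ∀ γ ∈ Γ, ∀ z : ℍ, γ • z = z → γ = 1 ∨ γ = -1) {γ : SL(2, ℤ)} (hγ : γ ∈ Γ)
    (h : γ ^ 12 = 1) : γ = 1 ∨ γ = -1 := by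
  rcases Fermat.Agent.S29lib.K3.exists_fixed_point_of_pow_twelve γ h with h1 | h1 | ⟨z, hz⟩
  · exact Or.inl h1
  · exact Or.inr h1
  · exact hfree γ hγ z hz

lemma neg_one_mem_zpowers : (-1 : SL(2, ℤ)) ∈ Subgroup.zpowers (-1 : SL(2, ℤ)) :=
  Subgroup.mem_zpowers _

/-- **(Hcls)** -/
theorem isParTor_classify {Γ : Subgroup SL(2, ℤ)}
    (hfree : ∀ γ ∈ Γ, ∀ z : ℍ, γ • z = z → γ = 1 ∨ γ = -1) (γ : SL(2, ℤ)) (hγ : γ ∈ Γ)
    (h : IsParTor γ) :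
    ∃ c ∈ Subgroup.zpowers (-1 : SL(2, ℤ)), ∃ (g : SL(2, ℤ)) (k : ℤ),
      γ = c * (g * ((S * T)⁻¹) ^ k * g⁻¹) ∨ γ = c * (g * S ^ k * g⁻¹) ∨
        γ = c * (g * T ^ k * g⁻¹) := by
  rcases h with h | h
  · obtain ⟨g, k, h | h⟩ := isPar_classify γ h
    · exact ⟨1, Subgroup.one_mem _, g, k, Or.inr (Or.inr (by rw [one_mul]; exact h))⟩
    · exact ⟨-1, neg_one_mem_zpowers, g, k, Or.inr (Or.inr (by rw [neg_one_mul]; exact h))⟩
  · rcases eq_one_or_neg_one_of_pow_twelve hfree hγ h with h1 | h1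
    · exact ⟨1, Subgroup.one_mem _, 1, 0, Or.inr (Or.inr (by simp [h1]))⟩
    · exact ⟨-1, neg_one_mem_zpowers, 1, 0, Or.inr (Or.inr (by simp [h1]))⟩

end Fermat.Agent.S27lib.D5
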