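/-
S27lib / D5 / Cycles (helper1).

Cycle counts on `X = SL(2,ℤ) ⧸ Γ` for `Γ ∋ -1` acting freely modulo `±1` on `ℍ`:
`2 * cyc S = |X|`, `3 * cyc (S T)⁻¹ = |X|`, `cyc T = numCusps Γ`.
-/
import Mathlib
import Fermat.Agent.ProgramR.Counting.Scott
import Fermat.Agent.S16lib.LG.Gamma0Count
import Fermat.Agent.S27lib.D4.CharSub
import Fermat.Agent.S27lib.D5.ParClass
import Fermat.Agent.S27lib.D5.CrossSL

set_option autoImplicit false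

namespace Fermat.Agent.S27lib.D5

open Fermat.Agent.ProgramR.ES Fermat.Agent.ProgramR.Genus Fermat.Agent.S16lib.LG
open Fermat.Agent.S27lib.D4 ModularGroup UpperHalfPlane
open scoped MatrixGroups

variable (Γ : Subgroup SL(2, ℤ))

/-- a non-scalar element of finite order has no fixed coset -/
lemma smul_ne_of_pow_twelve (hfree : ∀ γ ∈ Γ, ∀ z : ℍ, γ • z = z → γ = 1 ∨ γ = -1)
    {w : SL(2, ℤ)} (hw : w ^ 12 = 1) (h1 : w ≠ 1) (h2 : w ≠ -1) (x : SL(2, ℤ) ⧸ Γ) :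
    w • x ≠ x := by
  induction x using QuotientGroup.induction_on with
  | H g =>
    intro h
    have h' : ((w * g : SL(2, ℤ)) : SL(2, ℤ) ⧸ Γ) = (g : SL(2, ℤ) ⧸ Γ) := h
    rw [QuotientGroup.eq] at h'
    set δ : SL(2, ℤ) := (w * g)⁻¹ * g with hδ
    have hδ' : δ = g⁻¹ * w⁻¹ * (g⁻¹)⁻¹ := by rw [hδ]; group
    have hpow : δ ^ 12 = 1 := by
      rw [hδ', conj_pow, inv_pow, hw, inv_one, mul_one, mul_inv_cancel]
    have hw' : w = g * δ⁻¹ * g⁻¹ := by rw [hδ]; group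
    rcases eq_one_or_neg_one_of_pow_twelve hfree h' hpow with hd | hd
    · apply h1
      rw [hw', hd]
      group
    · apply h2
      rw [hw', hd]
      have : (-1 : SL(2, ℤ))⁻¹ = -1 := by
        rw [inv_eq_iff_mul_eq_one, neg_mul_neg, one_mul]
      rw [this, mul_neg, mul_one, neg_mul, mul_inv_cancel]

lemma S_ne_one : (S : SL(2, ℤ)) ≠ 1 := by
  intro h
  have := congrArg (fun g : SL(2, ℤ) => g 0 0) h
  simp [ModularGroup.S] at this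

lemma S_ne_neg_one : (S : SL(2, ℤ)) ≠ -1 := by
  intro h
  have := congrArg (fun g : SL(2, ℤ) => g 0 0) h
  simp [ModularGroup.S] at this

lemma ST_inv_ne_one : ((S * T : SL(2, ℤ)))⁻¹ ≠ 1 := by
  intro h
  rw [inv_eq_one] at h
  have := congrArg (fun g : SL(2, ℤ) => g 0 0) h
  simp [ModularGroup.S, ModularGroup.T, Matrix.mul_apply, Fin.sum_univ_two] at this

lemma ST_inv_ne_neg_one : ((S * T : SL(2, ℤ)))⁻¹ ≠ -1 := by
  intro h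
  have h' : (S * T : SL(2, ℤ)) = -1 := by
    rw [← inv_inv (S * T), h, inv_eq_iff_mul_eq_one, neg_mul_neg, one_mul]
  have := congrArg (fun g : SL(2, ℤ) => g 0 0) h'
  simp [ModularGroup.S, ModularGroup.T, Matrix.mul_apply, Fin.sum_univ_two] at this

lemma S_pow_twelve : (S : SL(2, ℤ)) ^ 12 = 1 := by
  rw [show 12 = 4 * 3 by norm_num, pow_mul, S_pow_four, one_pow]

lemma ST_inv_pow_twelve : ((S * T : SL(2, ℤ)))⁻¹ ^ 12 = 1 := by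
  rw [inv_pow, show 12 = 6 * 2 by norm_num, pow_mul, ST_pow_six, one_pow, inv_one]

variable [Fintype (SL(2, ℤ) ⧸ Γ)]

lemma fix_eq_zero_of_forall_ne {π : Equiv.Perm (SL(2, ℤ) ⧸ Γ)} (h : ∀ x, π x ≠ x) :
    fix π = 0 := by
  haveI : IsEmpty {x : SL(2, ℤ) ⧸ Γ // π x = x} := ⟨fun x => h x.1 x.2⟩
  exact Nat.card_of_isEmpty

/-- `2 * cyc S = |X|` -/
theorem two_mul_cyc_S (hneg : (-1 : SL(2, ℤ)) ∈ Γ)
    (hfree : ∀ γ ∈ Γ, ∀ z : ℍ, γ • z = z → γ = 1 ∨ γ = -1) :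
    2 * cyc (MulAction.toPerm S : Equiv.Perm (SL(2, ℤ) ⧸ Γ)) = Fintype.card (SL(2, ℤ) ⧸ Γ) := by
  classical
  obtain ⟨k, hk1, hk2⟩ := exists_cycle_count_of_pow_eq_one Nat.prime_two
    (MulAction.toPerm S : Equiv.Perm (SL(2, ℤ) ⧸ Γ)) (toPerm_S_sq Γ hneg)
  have hfix : fix (MulAction.toPerm S : Equiv.Perm (SL(2, ℤ) ⧸ Γ)) = 0 :=
    fix_eq_zero_of_forall_ne Γ
      (fun x => smul_ne_of_pow_twelve Γ hfree S_pow_twelve S_ne_one S_ne_neg_one x)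
  rw [hfix, zero_add] at hk1 hk2
  rw [hk1, hk2]

/-- `3 * cyc (S T)⁻¹ = |X|` -/
theorem three_mul_cyc_ST_inv (hneg : (-1 : SL(2, ℤ)) ∈ Γ)
    (hfree : ∀ γ ∈ Γ, ∀ z : ℍ, γ • z = z → γ = 1 ∨ γ = -1) :
    3 * cyc (MulAction.toPerm (S * T)⁻¹ : Equiv.Perm (SL(2, ℤ) ⧸ Γ)) =
      Fintype.card (SL(2, ℤ) ⧸ Γ) := by
  classical
  have hπ : (MulAction.toPerm (S * T)⁻¹ : Equiv.Perm (SL(2, ℤ) ⧸ Γ)) ^ 3 = 1 := by
    have e : (MulAction.toPerm (S * T)⁻¹ : Equiv.Perm (SL(2, ℤ) ⧸ Γ)) =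
        (MulAction.toPerm (S * T) : Equiv.Perm (SL(2, ℤ) ⧸ Γ))⁻¹ :=
      map_inv (MulAction.toPermHom SL(2, ℤ) (SL(2, ℤ) ⧸ Γ)) (S * T)
    rw [e, inv_pow, toPerm_ST_cube Γ hneg, inv_one]
  obtain ⟨k, hk1, hk2⟩ := exists_cycle_count_of_pow_eq_one Nat.prime_three
    (MulAction.toPerm (S * T)⁻¹ : Equiv.Perm (SL(2, ℤ) ⧸ Γ)) hπ
  have hfix : fix (MulAction.toPerm (S * T)⁻¹ : Equiv.Perm (SL(2, ℤ) ⧸ Γ)) = 0 :=
    fix_eq_zero_of_forall_ne Γ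
      (fun x => smul_ne_of_pow_twelve Γ hfree ST_inv_pow_twelve ST_inv_ne_one
        ST_inv_ne_neg_one x)
  rw [hfix, zero_add] at hk1 hk2
  rw [hk1, hk2]

omit [Fintype (SL(2, ℤ) ⧸ Γ)] in
/-- `cyc T = numCusps Γ` -/
theorem cyc_T_eq_numCusps :
    cyc (MulAction.toPerm T : Equiv.Perm (SL(2, ℤ) ⧸ Γ)) = numCusps Γ := by
  rw [cyc, numCusps]
  apply Nat.card_congr
  refine Quotient.congrRight ?_
  intro a b
  have hpow : ∀ i : ℤ, ((MulAction.toPerm T : Equiv.Perm (SL(2, ℤ) ⧸ Γ)) ^ i) a = T ^ i • a := by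
    intro i
    rw [← MulAction.toPermHom_apply, ← map_zpow]
    rfl
  constructor
  · rintro ⟨i, hi⟩
    rw [hpow] at hi
    show a ∈ MulAction.orbit (Subgroup.zpowers (T : SL(2, ℤ))) b
    refine ⟨⟨T ^ (-i), Subgroup.zpow_mem_zpowers T (-i)⟩, ?_⟩
    show T ^ (-i) • b = a
    rw [← hi, ← mul_smul, ← zpow_add, neg_add_cancel, zpow_zero, one_smul]
  · rintro ⟨⟨g, hg⟩, hga⟩
    obtain ⟨i, rfl⟩ := Subgroup.mem_zpowers_iff.mp hg
    have hga' : T ^ i • b = a := hga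
    refine ⟨-i, ?_⟩
    rw [hpow, ← hga', ← mul_smul, ← zpow_add, neg_add_cancel, zpow_zero, one_smul]

end Fermat.Agent.S27lib.D5
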