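/-
S27lib / D5 / ScottEq (helper1).

The Scott–Shapiro bound `S16lib/LG/ScottCard.card_parHomsM_mul_le` is an EQUALITY as soon as
crossed homomorphisms with prescribed coboundary values on the two generators exist
(e.g. `G` free on `x₁, x₂`, or `G / C = C₂ * C₃`), and every `Par` element of `Γ` is, up to the
subgroup `C ≤ Γ` on which these crossed homomorphisms vanish, conjugate to a power of some `xᵢ`.
-/
import Mathlib
import Fermat.Agent.S27lib.D5.Cross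

set_option autoImplicit false

namespace Fermat.Agent.S27lib.D5

open Fermat.Agent.S16lib.LG Fermat.Agent.ProgramR.ES Fermat.Agent.ProgramR.Genus

section Count

variable {G : Type*} [Group G] (Γ : Subgroup G) (M : Type*) [AddCommGroup M]

/-- the functions invariant under `g` -/
def invSub (g : G) : AddSubgroup ((G ⧸ Γ) → M) where
  carrier := {f | rhoM Γ g f = f}
  zero_mem' := map_zero _
  add_mem' := by
    intro a b ha hb
    show rhoM Γ g (a + b) = a + b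
    rw [map_add, ha, hb]
  neg_mem' := by
    intro a ha
    show rhoM Γ g (-a) = -a
    rw [map_neg, ha]

variable {Γ M} in
lemma mem_invSub_iff {g : G} {f : (G ⧸ Γ) → M} : f ∈ invSub Γ M g ↔ rhoM Γ g f = f := Iff.rfl

/-- an invariant function is determined by its values on representatives of the cycles -/
lemma card_invSub_le [Finite M] [Fintype (G ⧸ Γ)] (g : G) :
    Nat.card ↥(invSub Γ M g) ≤
      Nat.card M ^ cyc (MulAction.toPerm g : Equiv.Perm (G ⧸ Γ)) := by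
  classical
  set π : Equiv.Perm (G ⧸ Γ) := MulAction.toPerm g with hπ
  let res : ↥(invSub Γ M g) → (Quotient (Equiv.Perm.SameCycle.setoid π) → M) :=
    fun f q => f.1 (Quotient.out q)
  have hinv : ∀ (f : ↥(invSub Γ M g)) (y : G ⧸ Γ), f.1 (π y) = f.1 y := by
    intro f y
    have h := congrFun f.2 (g • y)
    rw [rhoM_apply, inv_smul_smul] at h
    exact h.symm
  have hres : Function.Injective res := by
    intro f f' hff'
    apply Subtype.ext
    funext x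
    have hsame : π.SameCycle
        (Quotient.out (Quotient.mk (Equiv.Perm.SameCycle.setoid π) x)) x :=
      @Quotient.exact _ (Equiv.Perm.SameCycle.setoid π) _ _ (Quotient.out_eq _)
    obtain ⟨i, hi⟩ := hsame
    rw [← hi, fixed_zpow (hinv f) i, fixed_zpow (hinv f') i]
    exact congrFun hff' _
  calc Nat.card ↥(invSub Γ M g)
      ≤ Nat.card (Quotient (Equiv.Perm.SameCycle.setoid π) → M) :=
        Nat.card_le_card_of_injective res hres
    _ = Nat.card M ^ cyc π := by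
        rw [Nat.card_fun]
        rfl

/-- `(a, b) ↦ (1 - x₁) a + x₁ (1 - x₂) b`, the value at `x₁ x₂` of the crossed homomorphism
with values `(1 - x₁) a`, `(1 - x₂) b` at `x₁`, `x₂`. -/
def PsiM (x₁ x₂ : G) : (((G ⧸ Γ) → M) × ((G ⧸ Γ) → M)) →+ ((G ⧸ Γ) → M) where
  toFun p := (p.1 - rhoM Γ x₁ p.1) + rhoM Γ x₁ (p.2 - rhoM Γ x₂ p.2)
  map_zero' := by simp
  map_add' p q := by
    simp only [Prod.fst_add, Prod.snd_add, map_add, map_sub]
    abel

lemma sigmaM_rhoM [Fintype (G ⧸ Γ)] (g : G) (f : (G ⧸ Γ) → M) :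
    sigmaM Γ M (rhoM Γ g f) = sigmaM Γ M f := by
  show ∑ x, f (g⁻¹ • x) = ∑ x, f x
  exact Equiv.sum_comp (MulAction.toPerm g⁻¹ : Equiv.Perm (G ⧸ Γ)) f

lemma range_PsiM_le [Fintype (G ⧸ Γ)] (x₁ x₂ : G) :
    (PsiM Γ M x₁ x₂).range ≤ (sigmaM Γ M).ker := by
  rintro _ ⟨p, rfl⟩
  show sigmaM Γ M ((p.1 - rhoM Γ x₁ p.1) + rhoM Γ x₁ (p.2 - rhoM Γ x₂ p.2)) = 0
  rw [map_add, sigmaM_rhoM, map_sub, map_sub, sigmaM_rhoM, sigmaM_rhoM, sub_self, sub_self,
    add_zero]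

lemma card_ker_sigmaM [Finite M] [Fintype (G ⧸ Γ)] :
    Nat.card ↥(sigmaM Γ M).ker * Nat.card M = Nat.card M ^ Fintype.card (G ⧸ Γ) := by
  classical
  have hsurj : Function.Surjective (sigmaM Γ M) := by
    intro a
    refine ⟨Pi.single (QuotientGroup.mk 1) a, ?_⟩
    show ∑ x, (Pi.single (QuotientGroup.mk 1 : G ⧸ Γ) a : (G ⧸ Γ) → M) x = a
    rw [Finset.sum_pi_single']
    simp
  have h := card_ker_mul_card_range (sigmaM Γ M)
  rw [AddMonoidHom.range_eq_top.mpr hsurj, Nat.card_fun, Nat.card_eq_fintype_card (α := G ⧸ Γ)]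
    at h
  have e : Nat.card (↥(⊤ : AddSubgroup M)) = Nat.card M :=
    Nat.card_congr (AddSubgroup.topEquiv (G := M)).toEquiv
  rw [e] at h
  exact h

lemma card_ker_PsiM_ge [Finite M] [Fintype (G ⧸ Γ)] (x₁ x₂ : G) :
    Nat.card M ^ (Fintype.card (G ⧸ Γ) + 1) ≤ Nat.card ↥(PsiM Γ M x₁ x₂).ker := by
  classical
  set m := Nat.card M with hm
  set N := Fintype.card (G ⧸ Γ) with hN
  have hmpos : 0 < m := Nat.card_pos
  have h1 := card_ker_mul_card_range (PsiM Γ M x₁ x₂)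
  rw [Nat.card_prod, Nat.card_fun, Nat.card_eq_fintype_card (α := G ⧸ Γ)] at h1
  have h2 : Nat.card ↥(PsiM Γ M x₁ x₂).range ≤ Nat.card ↥(sigmaM Γ M).ker :=
    AddSubgroup.card_le_of_le (range_PsiM_le Γ M x₁ x₂)
  have h3 := card_ker_sigmaM Γ M
  rw [← hm, ← hN] at h1 h3
  set K := Nat.card ↥(PsiM Γ M x₁ x₂).ker with hK
  set R := Nat.card ↥(PsiM Γ M x₁ x₂).range with hR
  set S := Nat.card ↥(sigmaM Γ M).ker with hS
  have h4 : m ^ (N + 1) * m ^ N ≤ K * m ^ N := by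
    calc m ^ (N + 1) * m ^ N = (m ^ N * m ^ N) * m := by ring
      _ = K * R * m := by rw [h1]
      _ ≤ K * S * m := by gcongr
      _ = K * m ^ N := by rw [mul_assoc, h3]
  exact Nat.le_of_mul_le_mul_right h4 (pos_of_gt (Nat.pow_pos hmpos))

/-- `(v, a₀, b₀) ↦ (v + a₀, v + b₀)` on `V^{x₃} × V^{x₁} × V^{x₂}` -/
def kappaM (x₁ x₂ x₃ : G) :
    (↥(invSub Γ M x₃) × ↥(invSub Γ M x₁) × ↥(invSub Γ M x₂)) →+
      (((G ⧸ Γ) → M) × ((G ⧸ Γ) → M)) where
  toFun w := ((w.1 : (G ⧸ Γ) → M) + w.2.1, (w.1 : (G ⧸ Γ) → M) + w.2.2)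
  map_zero' := by simp
  map_add' w w' := by
    refine Prod.ext ?_ ?_ <;>
    · simp only [Prod.fst_add, Prod.snd_add, AddSubgroup.coe_add]
      abel

lemma const_mem_invSub (g : G) (c : M) : (fun _ => c : (G ⧸ Γ) → M) ∈ invSub Γ M g := by
  show rhoM Γ g (fun _ => c) = fun _ => c
  funext x
  rfl

lemma card_range_kappaM_mul_le [Finite M] [Fintype (G ⧸ Γ)] (x₁ x₂ x₃ : G) :
    Nat.card ↥(kappaM Γ M x₁ x₂ x₃).range * Nat.card M ≤
      Nat.card M ^ (cyc (MulAction.toPerm x₁ : Equiv.Perm (G ⧸ Γ)) +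
        cyc (MulAction.toPerm x₂ : Equiv.Perm (G ⧸ Γ)) +
        cyc (MulAction.toPerm x₃ : Equiv.Perm (G ⧸ Γ))) := by
  classical
  have h1 := card_ker_mul_card_range (kappaM Γ M x₁ x₂ x₃)
  rw [Nat.card_prod, Nat.card_prod] at h1
  -- the constants embed in the kernel
  let ι : M → ↥(kappaM Γ M x₁ x₂ x₃).ker := fun c =>
    ⟨(⟨fun _ => c, const_mem_invSub Γ M x₃ c⟩, ⟨fun _ => -c, const_mem_invSub Γ M x₁ (-c)⟩,
      ⟨fun _ => -c, const_mem_invSub Γ M x₂ (-c)⟩), by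
      show kappaM Γ M x₁ x₂ x₃ _ = 0
      refine Prod.ext ?_ ?_ <;>
      · funext x
        show c + -c = 0
        exact add_neg_cancel c⟩
  have hι : Function.Injective ι := by
    intro c c' h
    have h1 := congrArg (fun w : ↥(kappaM Γ M x₁ x₂ x₃).ker =>
      (w.1.1 : (G ⧸ Γ) → M) (QuotientGroup.mk 1)) h
    exact h1
  have h2 : Nat.card M ≤ Nat.card ↥(kappaM Γ M x₁ x₂ x₃).ker :=
    Nat.card_le_card_of_injective ι hι
  have h3 := card_invSub_le Γ M x₁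
  have h4 := card_invSub_le Γ M x₂
  have h5 := card_invSub_le Γ M x₃
  calc Nat.card ↥(kappaM Γ M x₁ x₂ x₃).range * Nat.card M
      ≤ Nat.card ↥(kappaM Γ M x₁ x₂ x₃).range * Nat.card ↥(kappaM Γ M x₁ x₂ x₃).ker :=
        Nat.mul_le_mul_left _ h2
    _ = Nat.card ↥(invSub Γ M x₃) * (Nat.card ↥(invSub Γ M x₁) * Nat.card ↥(invSub Γ M x₂)) := by
        rw [mul_comm, h1]
    _ ≤ Nat.card M ^ cyc (MulAction.toPerm x₃ : Equiv.Perm (G ⧸ Γ)) *
        (Nat.card M ^ cyc (MulAction.toPerm x₁ : Equiv.Perm (G ⧸ Γ)) *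
          Nat.card M ^ cyc (MulAction.toPerm x₂ : Equiv.Perm (G ⧸ Γ))) := by gcongr
    _ = _ := by rw [← pow_add, ← pow_add]; congr 1; omega

end Count

section Main

variable {G : Type*} [Group G] (Γ : Subgroup G) (M : Type*) [AddCommGroup M]

/-- homomorphisms from a finitely generated group to a finite group: finitely many -/
lemma finite_addMonoidHom_of_fg (Δ : Type*) [Group Δ] [Group.FG Δ] (A : Type*) [AddCommGroup A]
    [Finite A] : Finite (Additive Δ →+ A) := by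
  obtain ⟨S, hS, hfin⟩ := Group.fg_iff.mp (inferInstance : Group.FG Δ)
  have : Finite ↥S := hfin.to_subtype
  let Φ : (Additive Δ →+ A) → (↥S → A) := fun f s => f (Additive.ofMul (s : Δ))
  refine Finite.of_injective Φ ?_
  intro f f' hff'
  apply AddMonoidHom.ext
  intro a
  induction a using Additive.rec with
  | ofMul γ =>
    have hγ : γ ∈ Subgroup.closure S := by rw [hS]; trivial
    induction hγ using Subgroup.closure_induction with
    | mem g hg => exact congrFun hff' ⟨g, hg⟩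
    | one => rw [ofMul_one, map_zero, map_zero]
    | mul g h _ _ ihg ihh => rw [ofMul_mul, map_add, map_add, ihg, ihh]
    | inv g _ ih => rw [ofMul_inv, map_neg, map_neg, ih]

lemma psiOf_congr {z z' : G → ((G ⧸ Γ) → M)} (hz : IsCross Γ z) (hz' : IsCross Γ z')
    (h : z = z') : hz.psiOf = hz'.psiOf := by
  subst h
  rfl

/-- **Lower bound.** -/
theorem card_parHomsM_mul_ge [Finite M] [Fintype (G ⧸ Γ)] {Par : G → Prop} (x₁ x₂ x₃ : G)
    (h123 : x₁ * x₂ * x₃ = 1) (hgen : Subgroup.closure ({x₁, x₂} : Set G) = ⊤)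
    (C : Subgroup G) (hC : C ≤ Γ)
    (Hz : ∀ a b : (G ⧸ Γ) → M, ∃ z : G → ((G ⧸ Γ) → M), IsCross Γ z ∧
      z x₁ = a - rhoM Γ x₁ a ∧ z x₂ = b - rhoM Γ x₂ b ∧ ∀ c ∈ C, z c = 0)
    (Hcls : ∀ γ ∈ Γ, Par γ → ∃ c ∈ C, ∃ (g : G) (k : ℤ),
      γ = c * (g * x₁ ^ k * g⁻¹) ∨ γ = c * (g * x₂ ^ k * g⁻¹) ∨ γ = c * (g * x₃ ^ k * g⁻¹)) :
    Nat.card M ^ (Fintype.card (G ⧸ Γ) + 2) ≤
      Nat.card ↥(parHomsM Γ Par M) *
        Nat.card M ^ (cyc (MulAction.toPerm x₁ : Equiv.Perm (G ⧸ Γ)) +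
          cyc (MulAction.toPerm x₂ : Equiv.Perm (G ⧸ Γ)) +
          cyc (MulAction.toPerm x₃ : Equiv.Perm (G ⧸ Γ))) := by
  classical
  have : Γ.FiniteIndex := Subgroup.finiteIndex_of_finite_quotient
  have : Group.FG G := Group.fg_iff.mpr ⟨{x₁, x₂}, hgen, Set.toFinite _⟩
  have : Finite (Additive Γ →+ M) := finite_addMonoidHom_of_fg Γ M
  choose zf hzf using Hz
  have hcr : ∀ a b, IsCross Γ (zf a b) := fun a b => (hzf a b).1
  have hz1 : ∀ a b, zf a b x₁ = a - rhoM Γ x₁ a := fun a b => (hzf a b).2.1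
  have hz2 : ∀ a b, zf a b x₂ = b - rhoM Γ x₂ b := fun a b => (hzf a b).2.2.1
  have hzC : ∀ a b, ∀ c ∈ C, zf a b c = 0 := fun a b => (hzf a b).2.2.2
  have hx3 : x₃ = (x₁ * x₂)⁻¹ := eq_inv_of_mul_eq_one_right h123
  have h312 : x₃ * (x₁ * x₂) = 1 := by rw [hx3, inv_mul_cancel]
  -- additivity
  have hadd : ∀ a b a' b', zf (a + a') (b + b') = zf a b + zf a' b' := by
    intro a b a' b'
    apply IsCross.eq_of_gen (hcr _ _) ((hcr a b).add (hcr a' b')) x₁ x₂ hgen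
    · rw [Pi.add_apply, hz1, hz1, hz1, map_add]; abel
    · rw [Pi.add_apply, hz2, hz2, hz2, map_add]; abel
  -- value at `x₁ x₂`
  have hz12 : ∀ a b, zf a b (x₁ * x₂) = PsiM Γ M x₁ x₂ (a, b) := by
    intro a b
    rw [hcr a b x₁ x₂, hz1, hz2]
    rfl
  set A := (PsiM Γ M x₁ x₂).ker with hA
  -- the map θ
  let θ : ↥A →+ (Additive Γ →+ M) :=
    { toFun := fun p => (hcr p.1.1 p.1.2).psiOf
      map_zero' := by
        have h0 : zf (0 : (G ⧸ Γ) → M) 0 = 0 := by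
          have h := hadd 0 0 0 0
          rw [add_zero] at h
          exact left_eq_add.mp h
        rw [psiOf_congr Γ M (hcr _ _) IsCross.zero h0]
        apply AddMonoidHom.ext
        intro γ
        rfl
      map_add' := by
        intro p q
        rw [psiOf_congr Γ M (hcr _ _) ((hcr p.1.1 p.1.2).add (hcr q.1.1 q.1.2))
          (hadd p.1.1 p.1.2 q.1.1 q.1.2)]
        exact IsCross.psiOf_add _ _ }
  have hθ : ∀ p : ↥A, θ p = (hcr p.1.1 p.1.2).psiOf := fun _ => rfl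
  -- the range of θ consists of `Par`-vanishing homomorphisms
  have hrange : θ.range ≤ parHomsM Γ Par M := by
    rintro _ ⟨p, rfl⟩
    rw [hθ]
    set z := zf p.1.1 p.1.2 with hzdef
    have hz : IsCross Γ z := hcr _ _
    have hp : PsiM Γ M x₁ x₂ p.1 = 0 := p.2
    have hW1 : z x₁ ∈ Wsub Γ (M := M) x₁ := by
      rw [hzdef, hz1]; exact sub_rhoM_mem_Wsub Γ x₁ _
    have hW2 : z x₂ ∈ Wsub Γ (M := M) x₂ := by
      rw [hzdef, hz2]; exact sub_rhoM_mem_Wsub Γ x₂ _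
    have hW3 : z x₃ ∈ Wsub Γ (M := M) x₃ := by
      have h0 : z x₃ = 0 := by
        rw [hx3, hz.map_inv, hzdef, hz12]
        have : ((p.1.1, p.1.2) : ((G ⧸ Γ) → M) × ((G ⧸ Γ) → M)) = p.1 := rfl
        rw [this, hp, map_zero, neg_zero]
      rw [h0]
      exact zero_mem _
    intro γ hγ
    obtain ⟨c, hc, g, k, hcase⟩ := Hcls γ γ.2 hγ
    have hcx : c • (QuotientGroup.mk 1 : G ⧸ Γ) = QuotientGroup.mk 1 := by
      have := smul_base_eq Γ ⟨c⁻¹, Γ.inv_mem (hC hc)⟩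
      simpa using this
    show z ((γ : Γ) : G) (QuotientGroup.mk 1) = 0
    rcases hcase with h | h | h
    · rw [h]
      exact hz.apply_base_eq_zero (hzC _ _ c hc) hcx hW1 (h ▸ γ.2)
    · rw [h]
      exact hz.apply_base_eq_zero (hzC _ _ c hc) hcx hW2 (h ▸ γ.2)
    · rw [h]
      exact hz.apply_base_eq_zero (hzC _ _ c hc) hcx hW3 (h ▸ γ.2)
  -- the kernel of θ
  have hker : ∀ p : ↥θ.ker, (p.1.1 : ((G ⧸ Γ) → M) × ((G ⧸ Γ) → M)) ∈
      (kappaM Γ M x₁ x₂ x₃).range := by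
    intro p
    set a := p.1.1.1 with ha
    set b := p.1.1.2 with hb
    set z := zf a b with hzdef
    have hz : IsCross Γ z := hcr _ _
    have hp : PsiM Γ M x₁ x₂ p.1.1 = 0 := p.1.2
    have hψ : (hcr a b).psiOf = 0 := p.2
    have h0 : ∀ γ : Γ, z (γ : G) (QuotientGroup.mk 1) = 0 := by
      intro γ
      have := DFunLike.congr_fun hψ (Additive.ofMul γ)
      exact this
    obtain ⟨v, hv⟩ := hz.exists_coboundary h0
    have e1 : rhoM Γ x₁ (a - v) = a - v := by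
      have h := hv x₁
      rw [hzdef, hz1] at h
      rw [map_sub]
      have : rhoM Γ x₁ a - rhoM Γ x₁ v = (a - v) - ((a - rhoM Γ x₁ a) - (v - rhoM Γ x₁ v)) := by
        abel
      rw [this, h, sub_self, sub_zero]
    have e2 : rhoM Γ x₂ (b - v) = b - v := by
      have h := hv x₂
      rw [hzdef, hz2] at h
      rw [map_sub]
      have : rhoM Γ x₂ b - rhoM Γ x₂ v = (b - v) - ((b - rhoM Γ x₂ b) - (v - rhoM Γ x₂ v)) := by
        abel
      rw [this, h, sub_self, sub_zero]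
    have e3 : rhoM Γ x₃ v = v := by
      have h := hv (x₁ * x₂)
      rw [hzdef, hz12] at h
      have : ((a, b) : ((G ⧸ Γ) → M) × ((G ⧸ Γ) → M)) = p.1.1 := rfl
      rw [this, hp] at h
      have h' : rhoM Γ (x₁ * x₂) v = v := (sub_eq_zero.mp h.symm).symm
      calc rhoM Γ x₃ v = rhoM Γ x₃ (rhoM Γ (x₁ * x₂) v) := by rw [h']
        _ = v := by rw [← rhoM_mul, h312, rhoM_one]
    refine ⟨(⟨v, e3⟩, ⟨a - v, e1⟩, ⟨b - v, e2⟩), ?_⟩
    show ((v + (a - v), v + (b - v)) : ((G ⧸ Γ) → M) × ((G ⧸ Γ) → M)) = p.1.1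
    refine Prod.ext ?_ ?_
    · show v + (a - v) = a
      abel
    · show v + (b - v) = b
      abel
  have hkercard : Nat.card ↥θ.ker ≤ Nat.card ↥(kappaM Γ M x₁ x₂ x₃).range := by
    refine Nat.card_le_card_of_injective (fun p => ⟨p.1.1, hker p⟩) ?_
    intro p q hpq
    have := congrArg Subtype.val hpq
    exact Subtype.ext (Subtype.ext this)
  -- counting
  set m := Nat.card M with hm
  set N := Fintype.card (G ⧸ Γ) with hN
  set cc := cyc (MulAction.toPerm x₁ : Equiv.Perm (G ⧸ Γ)) +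
    cyc (MulAction.toPerm x₂ : Equiv.Perm (G ⧸ Γ)) +
    cyc (MulAction.toPerm x₃ : Equiv.Perm (G ⧸ Γ)) with hcc
  have hmpos : 0 < m := Nat.card_pos
  have hA1 : m ^ (N + 1) ≤ Nat.card ↥A := card_ker_PsiM_ge Γ M x₁ x₂
  have hA2 : Nat.card ↥θ.ker * Nat.card ↥θ.range = Nat.card ↥A := card_ker_mul_card_range θ
  have hR : Nat.card ↥θ.range ≤ Nat.card ↥(parHomsM Γ Par M) := AddSubgroup.card_le_of_le hrange
  have hK : Nat.card ↥(kappaM Γ M x₁ x₂ x₃).range * m ≤ m ^ cc :=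
    card_range_kappaM_mul_le Γ M x₁ x₂ x₃
  calc m ^ (N + 2) = m ^ (N + 1) * m := by ring
    _ ≤ Nat.card ↥A * m := Nat.mul_le_mul_right _ hA1
    _ = Nat.card ↥θ.range * (Nat.card ↥θ.ker * m) := by rw [← hA2]; ring
    _ ≤ Nat.card ↥(parHomsM Γ Par M) * (Nat.card ↥(kappaM Γ M x₁ x₂ x₃).range * m) := by
        gcongr
    _ ≤ Nat.card ↥(parHomsM Γ Par M) * m ^ cc := Nat.mul_le_mul_left _ hK

/-- **Scott's bound is an equality.** -/
theorem card_parHomsM_mul_eq [Finite M] [Fintype (G ⧸ Γ)] {Par : G → Prop}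
    (hPar : ∀ g h : G, Par g → Par (h⁻¹ * g * h)) (x₁ x₂ x₃ : G)
    (hx₁ : ∀ (x : G ⧸ Γ) (m : ℕ), 0 < m → x₁ ^ m • x = x → Par (x₁ ^ m))
    (hx₂ : ∀ (x : G ⧸ Γ) (m : ℕ), 0 < m → x₂ ^ m • x = x → Par (x₂ ^ m))
    (hx₃ : ∀ (x : G ⧸ Γ) (m : ℕ), 0 < m → x₃ ^ m • x = x → Par (x₃ ^ m))
    (h123 : x₁ * x₂ * x₃ = 1) (hgen : Subgroup.closure ({x₁, x₂} : Set G) = ⊤)
    (C : Subgroup G) (hC : C ≤ Γ)
    (Hz : ∀ a b : (G ⧸ Γ) → M, ∃ z : G → ((G ⧸ Γ) → M), IsCross Γ z ∧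
      z x₁ = a - rhoM Γ x₁ a ∧ z x₂ = b - rhoM Γ x₂ b ∧ ∀ c ∈ C, z c = 0)
    (Hcls : ∀ γ ∈ Γ, Par γ → ∃ c ∈ C, ∃ (g : G) (k : ℤ),
      γ = c * (g * x₁ ^ k * g⁻¹) ∨ γ = c * (g * x₂ ^ k * g⁻¹) ∨ γ = c * (g * x₃ ^ k * g⁻¹)) :
    Nat.card ↥(parHomsM Γ Par M) *
        Nat.card M ^ (cyc (MulAction.toPerm x₁ : Equiv.Perm (G ⧸ Γ)) +
          cyc (MulAction.toPerm x₂ : Equiv.Perm (G ⧸ Γ)) +
          cyc (MulAction.toPerm x₃ : Equiv.Perm (G ⧸ Γ))) =
      Nat.card M ^ (Fintype.card (G ⧸ Γ) + 2) :=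
  le_antisymm (card_parHomsM_mul_le Γ M hPar x₁ x₂ x₃ hx₁ hx₂ hx₃ h123 hgen)
    (card_parHomsM_mul_ge Γ M x₁ x₂ x₃ h123 hgen C hC Hz Hcls)

end Main

end Fermat.Agent.S27lib.D5
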