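/-
S27lib / D5 / Final (helper1).

**Block D5 of Project D**: for `Γ ≤ SL(2,ℤ)` of finite index with `-1 ∈ Γ` acting freely modulo
`±1` on `ℍ`,
`|Hom⁰(Γ, M)|⁶ · |M|^(6 · numCusps Γ) = |M|^([SL(2,ℤ) : Γ] + 12)` for every finite abelian group
`M` (`Hom⁰` = homomorphisms killing the parabolic and the finite order elements), and with the
Riemann–Hurwitz formula `12 g - 12 = [SL(2,ℤ) : Γ] - 6 · numCusps Γ` of block D4:
`|charSubG Γ n| = n ^ (2 · genusG Γ)`.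
-/
import Mathlib
import Fermat.Agent.S27lib.D5.ScottEq
import Fermat.Agent.S27lib.D5.CrossSL
import Fermat.Agent.S27lib.D5.ParClass
import Fermat.Agent.S27lib.D5.Cycles
import Fermat.Agent.S27lib.D5.CharBridge
import Fermat.Agent.S27lib.D4.RH

set_option autoImplicit false

namespace Fermat.Agent.S27lib.D5

open Fermat.Agent.ProgramR.ES Fermat.Agent.ProgramR.Genus Fermat.Agent.S16lib.LG
open Fermat.Agent.S27lib.D4 ModularGroup UpperHalfPlane Matrix.SpecialLinearGroup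
open scoped MatrixGroups

variable (Γ : Subgroup SL(2, ℤ)) [Fintype (SL(2, ℤ) ⧸ Γ)]

lemma closure_ST_inv_S : Subgroup.closure ({(S * T)⁻¹, S} : Set SL(2, ℤ)) = ⊤ := by
  rw [eq_top_iff, ← SpecialLinearGroup.SL2Z_generators, Subgroup.closure_le]
  intro g hg
  have hS : (S : SL(2, ℤ)) ∈ Subgroup.closure ({(S * T)⁻¹, S} : Set SL(2, ℤ)) :=
    Subgroup.subset_closure (by simp)
  have hU : ((S * T : SL(2, ℤ)))⁻¹ ∈ Subgroup.closure ({(S * T)⁻¹, S} : Set SL(2, ℤ)) :=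
    Subgroup.subset_closure (by simp)
  rcases hg with rfl | hg
  · exact hS
  · rw [Set.mem_singleton_iff] at hg
    subst hg
    have e : (T : SL(2, ℤ)) = S⁻¹ * ((S * T)⁻¹)⁻¹ := by group
    rw [e]
    exact Subgroup.mul_mem _ (Subgroup.inv_mem _ hS) (Subgroup.inv_mem _ hU)

/-- **Scott's equality for `Γ`** in terms of the cycle counts. -/
theorem card_parHomsM_mul_eq_SL (hneg : (-1 : SL(2, ℤ)) ∈ Γ)
    (hfree : ∀ γ ∈ Γ, ∀ z : ℍ, γ • z = z → γ = 1 ∨ γ = -1)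
    (M : Type*) [AddCommGroup M] [Finite M] :
    Nat.card ↥(parHomsM Γ IsParTor M) *
        Nat.card M ^ (cyc (MulAction.toPerm (S * T)⁻¹ : Equiv.Perm (SL(2, ℤ) ⧸ Γ)) +
          cyc (MulAction.toPerm S : Equiv.Perm (SL(2, ℤ) ⧸ Γ)) +
          cyc (MulAction.toPerm T : Equiv.Perm (SL(2, ℤ) ⧸ Γ))) =
      Nat.card M ^ (Fintype.card (SL(2, ℤ) ⧸ Γ) + 2) :=
  card_parHomsM_mul_eq Γ M (Par := IsParTor) isParTor_conj (S * T)⁻¹ S T
    (fun _ m _ _ => isParTor_ST_inv_pow m) (fun _ m _ _ => isParTor_S_pow m)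
    (fun _ m _ _ => isParTor_T_pow m) (by group) closure_ST_inv_S
    (Subgroup.zpowers (-1 : SL(2, ℤ))) ((Subgroup.zpowers_le).mpr hneg)
    (fun a b => exists_isCross_SL Γ M hneg a b)
    (fun γ hγ h => isParTor_classify hfree γ hγ h)

/-- **D5, group-theoretic form.** -/
theorem card_parHomsM_clean (hneg : (-1 : SL(2, ℤ)) ∈ Γ)
    (hfree : ∀ γ ∈ Γ, ∀ z : ℍ, γ • z = z → γ = 1 ∨ γ = -1)
    (M : Type*) [AddCommGroup M] [Finite M] :
    Nat.card ↥(parHomsM Γ IsParTor M) ^ 6 * Nat.card M ^ (6 * numCusps Γ) =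
      Nat.card M ^ (Fintype.card (SL(2, ℤ) ⧸ Γ) + 12) := by
  have h := card_parHomsM_mul_eq_SL Γ hneg hfree M
  have h2 := two_mul_cyc_S Γ hneg hfree
  have h3 := three_mul_cyc_ST_inv Γ hneg hfree
  rw [cyc_T_eq_numCusps] at h
  set m := Nat.card M with hm
  set N := Fintype.card (SL(2, ℤ) ⧸ Γ) with hN
  set c := numCusps Γ with hc
  set c₁ := cyc (MulAction.toPerm (S * T)⁻¹ : Equiv.Perm (SL(2, ℤ) ⧸ Γ)) with hc₁
  set c₂ := cyc (MulAction.toPerm S : Equiv.Perm (SL(2, ℤ) ⧸ Γ)) with hc₂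
  set hh := Nat.card ↥(parHomsM Γ IsParTor M) with hhh
  have hmpos : 0 < m := Nat.card_pos
  have h6 : hh ^ 6 * m ^ (6 * (c₁ + c₂ + c)) = m ^ (6 * (N + 2)) := by
    rw [pow_mul' m 6, pow_mul' m 6, ← mul_pow, h]
  have e1 : 6 * (c₁ + c₂ + c) = 5 * N + 6 * c := by omega
  have e2 : 6 * (N + 2) = 5 * N + (N + 12) := by omega
  rw [e1, e2, pow_add, pow_add, ← mul_assoc, mul_comm (hh ^ 6), mul_assoc] at h6
  exact Nat.eq_of_mul_eq_mul_left (pow_pos hmpos _) h6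

/-- **D5**: `|Hom⁰(Γ, M)| = |M| ^ (2g)`. -/
theorem card_parHomsM_eq_pow_genusG (hΓ : GammaHyp Γ) (M : Type*) [AddCommGroup M] [Finite M] :
    Nat.card ↥(parHomsM Γ IsParTor M) = Nat.card M ^ (2 * genusG Γ) := by
  have h := card_parHomsM_clean Γ hΓ.neg hΓ.free M
  have hg := twelve_mul_genusG Γ hΓ
  set m := Nat.card M with hm
  set N := Fintype.card (SL(2, ℤ) ⧸ Γ) with hN
  set c := numCusps Γ with hc
  set g := genusG Γ with hgg
  have hmpos : 0 < m := Nat.card_pos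
  have e : N + 12 = 12 * g + 6 * c := by omega
  rw [e, pow_add] at h
  have h' : Nat.card ↥(parHomsM Γ IsParTor M) ^ 6 = m ^ (12 * g) :=
    Nat.eq_of_mul_eq_mul_right (pow_pos hmpos _) h
  have e2 : m ^ (12 * g) = (m ^ (2 * g)) ^ 6 := by rw [← pow_mul]; congr 1; omega
  rw [e2] at h'
  exact Nat.pow_left_injective (by norm_num : (6 : ℕ) ≠ 0) h'

/-- **D5, final form**: `|charSubG Γ n| = n ^ (2 · genusG Γ)`. -/
theorem card_charSubG (hΓ : GammaHyp Γ) {n : ℕ} (hn : 0 < n) :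
    Nat.card ↥(charSubG Γ n) = n ^ (2 * genusG Γ) := by
  haveI : NeZero n := ⟨hn.ne'⟩
  rw [card_charSubG_eq_card_parHomsM, card_parHomsM_eq_pow_genusG Γ hΓ (ZMod n), Nat.card_zmod]

end Fermat.Agent.S27lib.D5
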