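/-
S27lib / D5 / TorsionCount (helper1).

D4 + D5 combined: `|Pic⁰(FanG Γ)[n]| = n ^ (2 · genusG Γ)` for `Γ` with `GammaHyp Γ`
(the analytic Kummer isomorphism `D4.kummerEquivG_exists` + the count `D5.card_charSubG`).
-/
import Mathlib
import Fermat.Agent.S27lib.D5.Final
import Fermat.Agent.S27lib.D4.Glue

set_option autoImplicit false

namespace Fermat.Agent.S27lib.D5

open Fermat.Agent.S27lib.D4 AlgebraicCurve
open scoped MatrixGroups

variable (Γ : Subgroup SL(2, ℤ)) [Fintype (SL(2, ℤ) ⧸ Γ)]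

/-- **T1 over `ℂ` for the modular models**: the `n`-torsion of `Pic⁰(FanG Γ)` has `n ^ (2g)`
elements. -/
theorem card_torsion_FanG (hΓ : GammaHyp Γ) {n : ℕ} (hn : 0 < n) :
    Nat.card ↥(Pic0.torsion ℂ (FanG Γ) n) = n ^ (2 * genusG Γ) := by
  obtain ⟨κ, -⟩ := kummerEquivG_exists hΓ hn
  rw [Nat.card_congr κ.toEquiv, ← card_charSubG Γ hΓ hn]
  exact Nat.card_congr Additive.toMul

end Fermat.Agent.S27lib.D5
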